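import Fermat.Agent.S36.H987.PureCore

/-!
# S36 engine, ALG3 gap lemma G3 (helper987), part 2: purity with three components

Setting of `PureCore.lean`, with three sheets `V₁, V₂, V₃` of multiplicities `1, q - 1, 1`
(`Mult3`) which satisfy the `q`-expansion principle on the chart `B = chart R {x}`
(`Qep3F`, = `Eng.Qep3` unfolded).

* `three_dvd` : `g₁ g₂ ^ (q - 1) g₃ ∈ w B` if `gᵢ ∈ B ∩ 𝔪_{Vᵢ}`.
* `sheets_three` : every sheet is one of `V₁, V₂, V₃`.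
* `locReg_of_three` : at a closed point `𝔪 ∋ w` of `B`, some component through `𝔪` is locally
  principal, provided this holds at the points of the MIDDLE component (`hreg`) and a point on
  `V₁` and `V₃` is on `V₂` (`hinc`): off the middle component, `w` is a local generator.
* **`pure_of_three`** : the purity datum `u · d ^ m · s₀ = a₀`, `a₀, s₀ ∈ B ∖ 𝔪`, at every closed
  point `𝔪 ∋ w` of `B`, for `u` with `m ∣ div u` on the generic fibre, `u` a unit of `V₁, V₂, V₃`.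
-/

set_option autoImplicit false
set_option linter.style.haveILetI false
set_option linter.unusedSectionVars false
set_option linter.unusedVariables false
set_option synthInstance.maxHeartbeats 400000
set_option maxHeartbeats 1600000

noncomputable section

namespace Fermat.Agent.S36.H987

open Polynomial IsLocalRing
open Fermat.Agent.A2
open Fermat.Agent.A2.H12 (IsSheet)
open Fermat.Agent.S18.H138 (chart baseField)
open Fermat.Agent.S18.H754 (DivisibleDivisor)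
open Fermat.Agent.S36.H193 (centreW mem_centreW sheet_chart_le)

universe u

section Vocab

variable {R F : Type*} [CommRing R] [Field F] [Algebra R F]

/-- The multiplicities `1, q - 1, 1` of the three components: `w` is a uniformiser of `V₁` and of
`V₃`, and `w = unit · t ^ (q - 1)` at `V₂`, `t` a uniformiser. -/
structure Mult3 (w : R) (q : ℕ) (V₁ V₂ V₃ : ValuationSubring F) : Prop where
  w₁ : algebraMap R F w ∈ V₁.nonunits
  w₃ : algebraMap R F w ∈ V₃.nonunits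
  unif₁ : ∀ a ∈ V₁.nonunits, a * (algebraMap R F w)⁻¹ ∈ V₁
  unif₃ : ∀ a ∈ V₃.nonunits, a * (algebraMap R F w)⁻¹ ∈ V₃
  ram₂ : ∃ t : F, t ≠ 0 ∧ (∀ a ∈ V₂.nonunits, a * t⁻¹ ∈ V₂) ∧
    t ^ (q - 1) * (algebraMap R F w)⁻¹ ∈ V₂

/-- `Eng.Qep3`, unfolded. -/
def Qep3F (w : R) (B : Subalgebra R F) (V₁ V₂ V₃ : ValuationSubring F) : Prop :=
  ∀ b : B, (b : F) * (algebraMap R F w)⁻¹ ∈ V₁ → (b : F) * (algebraMap R F w)⁻¹ ∈ V₂ →
    (b : F) * (algebraMap R F w)⁻¹ ∈ V₃ → ∃ c : B, b = algebraMap R B w * c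

/-- `Eng.Through`, unfolded. -/
def Thru (B : Subalgebra R F) (𝔪 : Ideal B) (V : ValuationSubring F) : Prop :=
  ∀ b : B, (b : F) ∈ V.nonunits → b ∈ 𝔪

/-- `Eng.NormalAlong`, unfolded. -/
def NormalF (B : Subalgebra R F) (V : ValuationSubring F) : Prop :=
  ∀ (f : F) (P : Polynomial B), P.Monic → Polynomial.aeval f P ∈ V.nonunits →
    ∃ b : B, f - (b : F) ∈ V.nonunits

theorem three_dvd {B : Subalgebra R F} {w : R} {q : ℕ} {V₁ V₂ V₃ : ValuationSubring F}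
    (hM : Mult3 w q V₁ V₂ V₃)
    (hB₁ : ∀ c ∈ B, c ∈ V₁) (hB₂ : ∀ c ∈ B, c ∈ V₂) (hB₃ : ∀ c ∈ B, c ∈ V₃)
    (qep : Qep3F w B V₁ V₂ V₃)
    (g₁ g₂ g₃ : B) (h₁ : (g₁ : F) ∈ V₁.nonunits) (h₂ : (g₂ : F) ∈ V₂.nonunits)
    (h₃ : (g₃ : F) ∈ V₃.nonunits) :
    ∃ c : B, g₁ * g₂ ^ (q - 1) * g₃ = algebraMap R B w * c := by
  obtain ⟨t, ht0, ht, htw⟩ := hM.ram₂
  refine qep _ ?_ ?_ ?_
  · have e : ((g₁ * g₂ ^ (q - 1) * g₃ : B) : F) * (algebraMap R F w)⁻¹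
        = ((g₁ : F) * (algebraMap R F w)⁻¹) * ((g₂ : F) ^ (q - 1) * (g₃ : F)) := by
      push_cast
      ring
    rw [e]
    exact V₁.mul_mem _ _ (hM.unif₁ _ h₁)
      (V₁.mul_mem _ _ (V₁.pow_mem (hB₁ _ g₂.2) _) (hB₁ _ g₃.2))
  · have e : ((g₁ * g₂ ^ (q - 1) * g₃ : B) : F) * (algebraMap R F w)⁻¹
        = (((g₂ : F) * t⁻¹) ^ (q - 1) * (t ^ (q - 1) * (algebraMap R F w)⁻¹))
          * ((g₁ : F) * (g₃ : F)) := by
      push_cast
      rw [mul_pow, inv_pow]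
      have ht' : t ^ (q - 1) ≠ 0 := pow_ne_zero _ ht0
      field_simp
    rw [e]
    exact V₂.mul_mem _ _ (V₂.mul_mem _ _ (V₂.pow_mem (ht _ h₂) _) htw)
      (V₂.mul_mem _ _ (hB₂ _ g₁.2) (hB₂ _ g₃.2))
  · have e : ((g₁ * g₂ ^ (q - 1) * g₃ : B) : F) * (algebraMap R F w)⁻¹
        = ((g₃ : F) * (algebraMap R F w)⁻¹) * ((g₁ : F) * (g₂ : F) ^ (q - 1)) := by
      push_cast
      ring
    rw [e]
    exact V₃.mul_mem _ _ (hM.unif₃ _ h₃)
      (V₃.mul_mem _ _ (hB₃ _ g₁.2) (V₃.pow_mem (hB₃ _ g₂.2) _))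

/-- At a point `𝔪 ∋ w`, some component through `𝔪` is locally principal. -/
theorem locReg_of_three {B : Subalgebra R F} {w : R} {q : ℕ} {V₁ V₂ V₃ : ValuationSubring F}
    (hM : Mult3 w q V₁ V₂ V₃)
    (hB₁ : ∀ c ∈ B, c ∈ V₁) (hB₂ : ∀ c ∈ B, c ∈ V₂) (hB₃ : ∀ c ∈ B, c ∈ V₃)
    (qep : Qep3F w B V₁ V₂ V₃)
    (𝔪 : Ideal B) [h𝔪 : 𝔪.IsPrime] (hw𝔪 : algebraMap R B w ∈ 𝔪)
    (hinc : Thru B 𝔪 V₁ → Thru B 𝔪 V₃ → Thru B 𝔪 V₂)
    (hreg : Thru B 𝔪 V₂ → LocReg B 𝔪 V₁ ∨ LocReg B 𝔪 V₂ ∨ LocReg B 𝔪 V₃) :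
    LocReg B 𝔪 V₁ ∨ LocReg B 𝔪 V₂ ∨ LocReg B 𝔪 V₃ := by
  classical
  by_cases h₂ : Thru B 𝔪 V₂
  · exact hreg h₂
  have h₂' := h₂
  unfold Thru at h₂'
  push Not at h₂'
  obtain ⟨g₂, hg₂, hg₂𝔪⟩ := h₂'
  have hg₂q : g₂ ^ (q - 1) ∉ 𝔪 := fun h => hg₂𝔪 (h𝔪.mem_of_pow_mem _ h)
  by_cases h₁ : Thru B 𝔪 V₁
  · by_cases h₃ : Thru B 𝔪 V₃
    · exact absurd (hinc h₁ h₃) h₂
    · have h₃' := h₃
      unfold Thru at h₃'
      push Not at h₃'
      obtain ⟨g₃, hg₃, hg₃𝔪⟩ := h₃'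
      refine Or.inl ⟨h₁, algebraMap R B w, hM.w₁, fun a ha => ?_⟩
      obtain ⟨c, hc⟩ := three_dvd hM hB₁ hB₂ hB₃ qep a g₂ g₃ ha hg₂ hg₃
      refine ⟨g₂ ^ (q - 1) * g₃, c, ?_, ?_⟩
      · intro h
        rcases h𝔪.mem_or_mem h with h | h
        · exact hg₂q h
        · exact hg₃𝔪 h
      · rw [← hc]
        ring
  · have h₁' := h₁
    unfold Thru at h₁'
    push Not at h₁'
    obtain ⟨g₁, hg₁, hg₁𝔪⟩ := h₁'
    by_cases h₃ : Thru B 𝔪 V₃
    · refine Or.inr (Or.inr ⟨h₃, algebraMap R B w, hM.w₃, fun a ha => ?_⟩)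
      obtain ⟨c, hc⟩ := three_dvd hM hB₁ hB₂ hB₃ qep g₁ g₂ a hg₁ hg₂ ha
      refine ⟨g₁ * g₂ ^ (q - 1), c, ?_, ?_⟩
      · intro h
        rcases h𝔪.mem_or_mem h with h | h
        · exact hg₁𝔪 h
        · exact hg₂q h
      · rw [← hc]
    · exfalso
      have h₃' := h₃
      unfold Thru at h₃'
      push Not at h₃'
      obtain ⟨g₃, hg₃, hg₃𝔪⟩ := h₃'
      obtain ⟨c, hc⟩ := three_dvd hM hB₁ hB₂ hB₃ qep g₁ g₂ g₃ hg₁ hg₂ hg₃
      have hmem : g₁ * g₂ ^ (q - 1) * g₃ ∈ 𝔪 := by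
        rw [hc]
        exact 𝔪.mul_mem_right _ hw𝔪
      rcases h𝔪.mem_or_mem hmem with h | h
      · rcases h𝔪.mem_or_mem h with h | h
        · exact hg₁𝔪 h
        · exact hg₂q h
      · exact hg₃𝔪 h

end Vocab

section Three

variable {R E F : Type u} [CommRing R] [IsDomain R] [IsDiscreteValuationRing R]
  [Field E] [CharZero E] [Algebra R E] [IsFractionRing R E]
  [Field F] [Algebra E F] [Algebra R F] [IsScalarTower R E F]

/-- **Every sheet is one of the three components** (from the `q`-expansion principle). -/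
theorem sheets_three (w : R) (hw : Irreducible w) {x : F} (hx : Transcendental E x)
    (hfin : FiniteDimensional (IntermediateField.adjoin E ({x} : Set F)) F)
    {q : ℕ} {V₁ V₂ V₃ : ValuationSubring F}
    (hV₁ : IsSheet w x V₁) (hV₂ : IsSheet w x V₂) (hV₃ : IsSheet w x V₃)
    (hM : Mult3 w q V₁ V₂ V₃)
    (qep : Qep3F w (chart R ({x} : Set F)) V₁ V₂ V₃) :
    ∀ V, IsSheet w x V → V = V₁ ∨ V = V₂ ∨ V = V₃ := by
  classical
  intro V hV
  by_contra hcon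
  push Not at hcon
  obtain ⟨hne₁, hne₂, hne₃⟩ := hcon
  have hxR : Transcendental R x := Fermat.Agent.A2.Alg.H754.transcendental_base hx
  haveI : CharZero F := charZero_of_injective_algebraMap (algebraMap E F).injective
  haveI := Fermat.Agent.A2.Alg.H754.finiteDimensional_baseField (R := R) x hfin
  have hinjRF : Function.Injective (algebraMap R F) :=
    Fermat.Agent.A2.Alg.H754.algebraMap_base_injective (E := E)
  -- a component different from `V` has an element of its centre which is a unit of `V`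
  have key : ∀ W, IsSheet w x W → V ≠ W →
      ∃ g : chart R ({x} : Set F), (g : F) ∈ W.nonunits ∧ (g : F) ∉ V.nonunits := by
    intro W hW hne
    by_contra hno
    push Not at hno
    apply hne
    refine Fermat.Agent.S36.H193.sheet_eq_of_centre_eq hinjRF hw.prime hxR hV hW ?_
    have hle : centreW W (chart R ({x} : Set F)) (sheet_chart_le hW)
        ≤ centreW V (chart R ({x} : Set F)) (sheet_chart_le hV) := by
      intro g hg
      rw [mem_centreW] at hg ⊢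
      exact hno g hg
    have hminV := Fermat.Agent.S36.H193.centre_mem_minimalPrimes hV
    have hminW := Fermat.Agent.S36.H193.centre_mem_minimalPrimes hW
    exact le_antisymm (hminV.2 hminW.1 hle) hle
  obtain ⟨g₁, hg₁, hg₁V⟩ := key V₁ hV₁ hne₁
  obtain ⟨g₂, hg₂, hg₂V⟩ := key V₂ hV₂ hne₂
  obtain ⟨g₃, hg₃, hg₃V⟩ := key V₃ hV₃ hne₃
  obtain ⟨c, hc⟩ := three_dvd hM (sheet_chart_le hV₁) (sheet_chart_le hV₂) (sheet_chart_le hV₃)
    qep g₁ g₂ g₃ hg₁ hg₂ hg₃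
  set p := centreW V (chart R ({x} : Set F)) (sheet_chart_le hV) with hp
  haveI hpp : p.IsPrime := inferInstance
  have hwp : algebraMap R (chart R ({x} : Set F)) w ∈ p :=
    (mem_centreW V _ (sheet_chart_le hV) _).2 hV.2.2.1
  have hmem : g₁ * g₂ ^ (q - 1) * g₃ ∈ p := by
    rw [hc]
    exact p.mul_mem_right _ hwp
  rcases hpp.mem_or_mem hmem with h | h
  · rcases hpp.mem_or_mem h with h | h
    · exact hg₁V ((mem_centreW V _ (sheet_chart_le hV) _).1 h)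
    · exact hg₂V ((mem_centreW V _ (sheet_chart_le hV) _).1 (hpp.mem_of_pow_mem _ h))
  · exact hg₃V ((mem_centreW V _ (sheet_chart_le hV) _).1 h)

/-- **Purity at every closed point of the special fibre of a chart with three components.** -/
theorem pure_of_three (w : R) (hw : Irreducible w) {x : F} (hx : Transcendental E x)
    (hfin : FiniteDimensional (IntermediateField.adjoin E ({x} : Set F)) F)
    {q : ℕ} {V₁ V₂ V₃ : ValuationSubring F}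
    (hV₁ : IsSheet w x V₁) (hV₂ : IsSheet w x V₂) (hV₃ : IsSheet w x V₃)
    (hM : Mult3 w q V₁ V₂ V₃)
    (qep : Qep3F w (chart R ({x} : Set F)) V₁ V₂ V₃)
    (hn₁ : NormalF (chart R ({x} : Set F)) V₁) (hn₂ : NormalF (chart R ({x} : Set F)) V₂)
    (hn₃ : NormalF (chart R ({x} : Set F)) V₃)
    (𝔪 : Ideal (chart R ({x} : Set F))) (h𝔪 : 𝔪.IsMaximal)
    (hw𝔪 : algebraMap R (chart R ({x} : Set F)) w ∈ 𝔪)
    (hinc : Thru _ 𝔪 V₁ → Thru _ 𝔪 V₃ → Thru _ 𝔪 V₂)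
    (hreg : Thru _ 𝔪 V₂ → LocReg _ 𝔪 V₁ ∨ LocReg _ 𝔪 V₂ ∨ LocReg _ 𝔪 V₃)
    {m : ℕ} (hm : 0 < m) {u : F} (hu : u ≠ 0) (hdiv : DivisibleDiv E m u)
    (hu₁ : u ∈ V₁ ∧ u⁻¹ ∈ V₁) (hu₂ : u ∈ V₂ ∧ u⁻¹ ∈ V₂) (hu₃ : u ∈ V₃ ∧ u⁻¹ ∈ V₃) :
    ∃ d : F, d ≠ 0 ∧ ∃ a₀ s₀ : chart R ({x} : Set F), a₀ ∉ 𝔪 ∧ s₀ ∉ 𝔪 ∧
      u * d ^ m * (s₀ : F) = a₀ := by
  classical
  haveI := h𝔪.isPrime
  have hsheets := sheets_three w hw hx hfin hV₁ hV₂ hV₃ hM qep
  have hus : ∀ V, IsSheet w x V → u ∈ V ∧ u⁻¹ ∈ V := by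
    intro V hV
    rcases hsheets V hV with rfl | rfl | rfl
    · exact hu₁
    · exact hu₂
    · exact hu₃
  rcases locReg_of_three hM (sheet_chart_le hV₁) (sheet_chart_le hV₂) (sheet_chart_le hV₃) qep
    𝔪 hw𝔪 hinc hreg with h | h | h
  · exact pure_of_locReg w hw hx hfin hm hu hdiv hus V₁ hV₁ hn₁ 𝔪 h𝔪 h
  · exact pure_of_locReg w hw hx hfin hm hu hdiv hus V₂ hV₂ hn₂ 𝔪 h𝔪 h
  · exact pure_of_locReg w hw hx hfin hm hu hdiv hus V₃ hV₃ hn₃ 𝔪 h𝔪 h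

end Three

end Fermat.Agent.S36.H987

end
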