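import Fermat.Agent.S36.Eng.Spec
import Fermat.Agent.S36.H987.Pure3

/-!
# S36 engine, ALG3 gap lemma G3 (helper987), part 3: purity from the frozen `Eng.TripleCtx`

In a three-component context (`Eng.TripleCtx`, `Eng/Spec.lean` v1.3), for `u ≠ 0` with
`m ∣ div u` on the generic fibre (`A2.DivisibleDiv E m u`) which is a unit of `V₁, V₂, V₃`:

* `ctx_isSheet₁/₂/₃`, `ctx_mult3`, `ctx_sheets` : the `Vᵢ` are sheets, with multiplicities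
  `1, q - 1, 1`, and every sheet is one of them.
* **`ctx_pure_fin`** : the purity datum `u · d ^ m · s₀ = a₀`, `a₀, s₀ ∈ Bf ∖ 𝔪`, at EVERY closed
  point `𝔪 ∋ w` of the finite chart `Bf = chart R {x}`.
* **`ctx_pure_cusp`** : the same at every closed point `𝔪 ∋ w, x⁻¹` (cusp) of `Bi = chart R {x⁻¹}`.

These are exactly the purity inputs `(d, a₀, s₀, ha₀, hs₀, hpure)` of
`H630.basePureValuesAt_single / _triple`.
-/

set_option autoImplicit false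
set_option linter.style.haveILetI false
set_option linter.unusedSectionVars false
set_option linter.unusedVariables false
set_option synthInstance.maxHeartbeats 400000
set_option maxHeartbeats 1600000

noncomputable section

namespace Fermat.Agent.S36.H987

open Polynomial IsLocalRing
open Fermat.Agent.A2
open Fermat.Agent.A2.H12 (IsSheet)
open Fermat.Agent.S18.H138 (chart baseField)

universe u

section Adjoin

variable {E F : Type*} [Field E] [Field F] [Algebra E F]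

theorem adjoin_inv_eq987 (x : F) :
    IntermediateField.adjoin E ({x⁻¹} : Set F) = IntermediateField.adjoin E ({x} : Set F) := by
  apply le_antisymm
  · rw [IntermediateField.adjoin_le_iff, Set.singleton_subset_iff]
    exact (IntermediateField.adjoin E ({x} : Set F)).inv_mem
      (IntermediateField.subset_adjoin E _ rfl)
  · rw [IntermediateField.adjoin_le_iff, Set.singleton_subset_iff]
    have h := (IntermediateField.adjoin E ({x⁻¹} : Set F)).inv_mem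
      (IntermediateField.subset_adjoin E _ rfl)
    rwa [inv_inv] at h

theorem finiteDimensional_adjoin_inv987 {x : F}
    (hfin : FiniteDimensional (IntermediateField.adjoin E ({x} : Set F)) F) :
    FiniteDimensional (IntermediateField.adjoin E ({x⁻¹} : Set F)) F := by
  rw [adjoin_inv_eq987]
  exact hfin

end Adjoin

section Ctx

variable {R E F F' : Type u} [CommRing R] [IsDomain R] [IsDiscreteValuationRing R]
  [Field E] [CharZero E] [Algebra R E] [IsFractionRing R E]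
  [Field F] [Algebra E F] [Algebra R F] [IsScalarTower R E F]
  [Field F'] [Algebra E F'] [Algebra R F']
variable {w : R} {q : ℕ} {α β : F' →ₐ[E] F} {x : F} {x' : F'}
  {V₁ V₂ V₃ : ValuationSubring F} {V₁' V₂' : ValuationSubring F'}

omit [IsDomain R] [IsDiscreteValuationRing R] [CharZero E] [IsFractionRing R E]
  [IsScalarTower R E F] in
theorem ctx_w_mem₂ (hq : q.Prime) (ctx : Eng.TripleCtx w q α β x x' V₁ V₂ V₃ V₁' V₂') :
    algebraMap R F w ∈ V₂.nonunits := by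
  obtain ⟨t, ⟨ht0, htn, -⟩, ⟨-, hy, -⟩⟩ := ctx.ram₂
  have hq1 : q - 1 ≠ 0 := by
    have := hq.two_le
    omega
  have e : algebraMap R F w = (algebraMap R F w * (t ^ (q - 1))⁻¹) * t ^ (q - 1) := by
    rw [mul_assoc, inv_mul_cancel₀ (pow_ne_zero _ ht0), mul_one]
  rw [e]
  exact Fermat.Agent.S36.H193.nu_mul_left V₂ (Fermat.Agent.S36.H193.nu_pow V₂ htn hq1) hy

omit [IsDomain R] [IsDiscreteValuationRing R] [CharZero E] [IsFractionRing R E]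
  [IsScalarTower R E F] in
theorem ctx_isSheet₁ (ctx : Eng.TripleCtx w q α β x x' V₁ V₂ V₃ V₁' V₂') : IsSheet w x V₁ :=
  ⟨ctx.base₁, ctx.x_unit₁.2.1, ctx.unif₁.2.1, ctx.gauss₁⟩

omit [IsDomain R] [IsDiscreteValuationRing R] [CharZero E] [IsFractionRing R E]
  [IsScalarTower R E F] in
theorem ctx_isSheet₂ (hq : q.Prime) (ctx : Eng.TripleCtx w q α β x x' V₁ V₂ V₃ V₁' V₂') :
    IsSheet w x V₂ :=
  ⟨ctx.base₂, ctx.x_unit₂.2.1, ctx_w_mem₂ hq ctx, ctx.gauss₂⟩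

omit [IsDomain R] [IsDiscreteValuationRing R] [CharZero E] [IsFractionRing R E]
  [IsScalarTower R E F] in
theorem ctx_isSheet₃ (ctx : Eng.TripleCtx w q α β x x' V₁ V₂ V₃ V₁' V₂') : IsSheet w x V₃ :=
  ⟨ctx.base₃, ctx.x_unit₃.2.1, ctx.unif₃.2.1, ctx.gauss₃⟩

omit [IsDomain R] [IsDiscreteValuationRing R] [CharZero E] [IsFractionRing R E]
  [IsScalarTower R E F] in
theorem ctx_mult3 (ctx : Eng.TripleCtx w q α β x x' V₁ V₂ V₃ V₁' V₂') :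
    Mult3 w q V₁ V₂ V₃ where
  w₁ := ctx.unif₁.2.1
  w₃ := ctx.unif₃.2.1
  unif₁ := ctx.unif₁.2.2
  unif₃ := ctx.unif₃.2.2
  ram₂ := by
    obtain ⟨t, ⟨ht0, -, ht⟩, ⟨-, -, hy⟩⟩ := ctx.ram₂
    refine ⟨t, ht0, ht, ?_⟩
    have e : t ^ (q - 1) * (algebraMap R F w)⁻¹ = (algebraMap R F w * (t ^ (q - 1))⁻¹)⁻¹ := by
      rw [mul_inv, inv_inv, mul_comm]
    rw [e]
    exact hy

/-- Every sheet is one of `V₁, V₂, V₃`. -/
theorem ctx_sheets (hw : Irreducible w) (hq : q.Prime)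
    (ctx : Eng.TripleCtx w q α β x x' V₁ V₂ V₃ V₁' V₂') :
    ∀ V, IsSheet w x V → V = V₁ ∨ V = V₂ ∨ V = V₃ :=
  sheets_three w hw ctx.hx ctx.hfin (ctx_isSheet₁ ctx) (ctx_isSheet₂ hq ctx) (ctx_isSheet₃ ctx)
    (ctx_mult3 ctx) ctx.qep_f

/-- **Purity at every closed point of the special fibre of the finite chart.** -/
theorem ctx_pure_fin (hw : Irreducible w) (hq : q.Prime)
    (ctx : Eng.TripleCtx w q α β x x' V₁ V₂ V₃ V₁' V₂')
    (𝔪 : Ideal (chart R ({x} : Set F))) (h𝔪 : 𝔪.IsMaximal)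
    (hw𝔪 : algebraMap R (chart R ({x} : Set F)) w ∈ 𝔪)
    {m : ℕ} (hm : 0 < m) {u : F} (hdiv : DivisibleDiv E m u)
    (hu₁ : Eng.UnitAt V₁ u) (hu₂ : Eng.UnitAt V₂ u) (hu₃ : Eng.UnitAt V₃ u) :
    ∃ d : F, d ≠ 0 ∧ ∃ a₀ s₀ : chart R ({x} : Set F), a₀ ∉ 𝔪 ∧ s₀ ∉ 𝔪 ∧
      u * d ^ m * (s₀ : F) = a₀ := by
  refine pure_of_three w hw ctx.hx ctx.hfin (ctx_isSheet₁ ctx) (ctx_isSheet₂ hq ctx)
    (ctx_isSheet₃ ctx) (ctx_mult3 ctx) ctx.qep_f ctx.normal_f₁ ctx.normal_f₂ ctx.normal_f₃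
    𝔪 h𝔪 hw𝔪 ?_ ?_ hm hu₁.1 hdiv hu₁.2 hu₂.2 hu₃.2
  · intro h₁ h₃
    exact (ctx.incidence 𝔪 h𝔪 (Or.inr (Or.inl ⟨h₁, h₃⟩))).2.1
  · intro h₂
    rcases ctx.regular_f 𝔪 h𝔪 h₂ with ⟨h₁, hp⟩ | hp | ⟨h₃, hp⟩
    · exact Or.inl ⟨h₁, hp⟩
    · exact Or.inr (Or.inl ⟨h₂, hp⟩)
    · exact Or.inr (Or.inr ⟨h₃, hp⟩)

/-- **Purity at the cusps** (closed points `𝔪 ∋ w, x⁻¹` of the chart at infinity). -/
theorem ctx_pure_cusp (hw : Irreducible w) (hq : q.Prime)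
    (ctx : Eng.TripleCtx w q α β x x' V₁ V₂ V₃ V₁' V₂')
    (𝔪 : Ideal (chart R ({x⁻¹} : Set F))) (h𝔪 : 𝔪.IsMaximal)
    (hw𝔪 : algebraMap R (chart R ({x⁻¹} : Set F)) w ∈ 𝔪)
    (hx𝔪 : (⟨x⁻¹, Fermat.Agent.S18.H138.mem_chart_of_mem rfl⟩ : chart R ({x⁻¹} : Set F)) ∈ 𝔪)
    {m : ℕ} (hm : 0 < m) {u : F} (hdiv : DivisibleDiv E m u)
    (hu₁ : Eng.UnitAt V₁ u) (hu₂ : Eng.UnitAt V₂ u) (hu₃ : Eng.UnitAt V₃ u) :
    ∃ d : F, d ≠ 0 ∧ ∃ a₀ s₀ : chart R ({x⁻¹} : Set F), a₀ ∉ 𝔪 ∧ s₀ ∉ 𝔪 ∧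
      u * d ^ m * (s₀ : F) = a₀ := by
  have hx0 : x ≠ 0 := ctx.x_unit₁.1
  have hxi : Transcendental E x⁻¹ := Fermat.Agent.S18.H138.transcendental_inv ctx.hx
  have hfini := finiteDimensional_adjoin_inv987 ctx.hfin
  have hs₁ : IsSheet w x⁻¹ V₁ := (Fermat.Agent.S36.H193.isSheet_inv_iff w hx0 V₁).2 (ctx_isSheet₁ ctx)
  have hs₂ : IsSheet w x⁻¹ V₂ :=
    (Fermat.Agent.S36.H193.isSheet_inv_iff w hx0 V₂).2 (ctx_isSheet₂ hq ctx)
  have hs₃ : IsSheet w x⁻¹ V₃ := (Fermat.Agent.S36.H193.isSheet_inv_iff w hx0 V₃).2 (ctx_isSheet₃ ctx)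
  obtain ⟨hc₁₂, hc₁₃, hc₂₃⟩ := ctx.cusp_single 𝔪 h𝔪 hw𝔪 hx𝔪
  refine pure_of_three w hw hxi hfini hs₁ hs₂ hs₃ (ctx_mult3 ctx) ctx.qep_i
    ctx.normal_i₁ ctx.normal_i₂ ctx.normal_i₃ 𝔪 h𝔪 hw𝔪 ?_ ?_ hm hu₁.1 hdiv hu₁.2 hu₂.2 hu₃.2
  · intro h₁ h₃
    exact absurd ⟨h₁, h₃⟩ hc₁₃
  · intro h₂
    exact Or.inr (Or.inl ⟨h₂, ctx.regular_i 𝔪 h𝔪 hx𝔪 h₂⟩)

end Ctx

end Fermat.Agent.S36.H987

end
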