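import Fermat.Agent.S36.Alg3.Spec
import Fermat.Agent.S36.H630.Final
import Fermat.Agent.S36.H987.PureCtx

/-!
# S36 / ALG3 — leaf PURE (helper987)

`leafPure : Alg3.LeafPure` (frozen in `S36/Alg3/Spec.lean`, sub-architect helper586), VERBATIM.

Assembly of
* G3 (helper987, `PureCtx.lean`): the purity datum `u · d ^ m · s₀ = a₀` at every closed point of
  the special fibre of the finite chart (`ctx_pure_fin`) and at the cusps (`ctx_pure_cusp`);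
* the change of chart off the cusps (`ctx_pure_inf`, with `H630.backIdeal`);
* G4 + KAPPA + CHART-CHANGE (helper630, `H630.exists_kappa_basePure`).
-/

set_option autoImplicit false
set_option linter.style.haveILetI false
set_option linter.unusedSectionVars false
set_option linter.unusedVariables false
set_option synthInstance.maxHeartbeats 400000
set_option maxHeartbeats 1600000

noncomputable section

namespace Fermat.Agent.S36.H987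

open Polynomial IsLocalRing
open Fermat.Agent.A2
open Fermat.Agent.A2.H12 (IsSheet)
open Fermat.Agent.S18.H138 (chart baseField)

universe u

section Inf

variable {R E F F' : Type u} [CommRing R] [IsDomain R] [IsDiscreteValuationRing R]
  [IsAlgClosed (IsLocalRing.ResidueField R)]
  [Field E] [CharZero E] [Algebra R E] [IsFractionRing R E]
  [Field F] [Algebra E F] [Algebra R F] [IsScalarTower R E F]
  [Field F'] [Algebra E F'] [Algebra R F']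
variable {w : R} {q : ℕ} {α β : F' →ₐ[E] F} {x : F} {x' : F'}
  {V₁ V₂ V₃ : ValuationSubring F} {V₁' V₂' : ValuationSubring F'}

/-- **Purity at every closed point of the special fibre of the chart at infinity.** -/
theorem ctx_pure_inf (hw : Irreducible w) (hq : q.Prime)
    (ctx : Eng.TripleCtx w q α β x x' V₁ V₂ V₃ V₁' V₂')
    (𝔫 : Ideal (chart R ({x⁻¹} : Set F))) (h𝔫 : 𝔫.IsMaximal)
    (hw𝔫 : algebraMap R (chart R ({x⁻¹} : Set F)) w ∈ 𝔫)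
    {m : ℕ} (hm : 0 < m) {u : F} (hdiv : DivisibleDiv E m u)
    (hu₁ : Eng.UnitAt V₁ u) (hu₂ : Eng.UnitAt V₂ u) (hu₃ : Eng.UnitAt V₃ u) :
    ∃ d : F, d ≠ 0 ∧ ∃ a₀ s₀ : chart R ({x⁻¹} : Set F), a₀ ∉ 𝔫 ∧ s₀ ∉ 𝔫 ∧
      u * d ^ m * (s₀ : F) = a₀ := by
  classical
  haveI := h𝔫
  have h𝔫p : 𝔫.IsPrime := h𝔫.isPrime
  have hyB' : x⁻¹ ∈ chart R ({x⁻¹} : Set F) := Fermat.Agent.S18.H138.mem_chart_of_mem rfl
  by_cases hy : (⟨x⁻¹, hyB'⟩ : chart R ({x⁻¹} : Set F)) ∈ 𝔫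
  · exact ctx_pure_cusp hw hq ctx 𝔫 h𝔫 hw𝔫 hy hm hdiv hu₁ hu₂ hu₃
  · have hx0 : x ≠ 0 := ctx.x_unit₁.1
    have h𝔪n' := Fermat.Agent.S36.H630.maximalIdeal_map_mem hw hw𝔫
    have hrat' := Fermat.Agent.S36.H630.rat_chart x⁻¹ 𝔫 h𝔫 h𝔪n'
    have hclear : ∀ b : chart R ({x} : Set F),
        ∃ k : ℕ, x⁻¹ ^ k * (b : F) ∈ chart R ({x⁻¹} : Set F) :=
      fun b => Fermat.Agent.S18.H138.exists_inv_pow_mul_mem_chart hx0 b.2
    have hnmax : (Fermat.Agent.S36.H630.backIdeal (chart R ({x} : Set F)) 𝔫 x⁻¹ hyB'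
        hclear).IsMaximal :=
      Fermat.Agent.S36.H630.backIdeal_isMaximal hyB' hclear hy h𝔪n' hrat'
    have hwn : algebraMap R (chart R ({x} : Set F)) w
        ∈ Fermat.Agent.S36.H630.backIdeal (chart R ({x} : Set F)) 𝔫 x⁻¹ hyB' hclear :=
      (Fermat.Agent.S36.H630.algebraMap_mem_backIdeal_iff hyB' hclear hy w).2 hw𝔫
    obtain ⟨d, hd0, a₀, s₀, ha₀, hs₀, hpure⟩ :=
      ctx_pure_fin hw hq ctx _ hnmax hwn hm hdiv hu₁ hu₂ hu₃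
    obtain ⟨k, hka, hks⟩ := Fermat.Agent.S36.H630.exists_clear₂ hyB' hclear a₀ s₀
    refine ⟨d, hd0, ⟨_, hka⟩, ⟨_, hks⟩, ?_, ?_, ?_⟩
    · intro h
      exact ha₀ ((Fermat.Agent.S36.H630.mem_backIdeal_iff hyB' hclear hy a₀ k hka).2 h)
    · intro h
      exact hs₀ ((Fermat.Agent.S36.H630.mem_backIdeal_iff hyB' hclear hy s₀ k hks).2 h)
    · show u * d ^ m * (x⁻¹ ^ k * (s₀ : F)) = x⁻¹ ^ k * (a₀ : F)
      rw [← hpure]
      ring

end Inf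

/-- **Leaf PURE of ALG3** (`S36/Alg3/Spec.lean`). -/
theorem leafPure : Alg3.LeafPure := by
  intro R E F F' _ _ _ _ _ _ _ _ _ _ _ _ _ _ _ _ _ w hw q hq hqR α β x x' V₁ V₂ V₃ V₁' V₂' ctx
    m hm hqm ζ hζ u hu hdiv hu₁ hu₂ hu₃ k₁ k₂ hk₁ hk₂
  obtain ⟨κ, hfin, hinf⟩ := Fermat.Agent.S36.H630.exists_kappa_basePure ctx hw hq.pos
    (IsFractionRing.injective R E) hm hζ hu₁ hu₂ hu₃ hk₁ hk₂
  have hU₁ : Eng.UnitAt V₁ u := Fermat.Agent.S36.H630.unit_of_split hu₁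
  have hU₂ : Eng.UnitAt V₂ u := Fermat.Agent.S36.H630.unit_of_split hu₂
  have hU₃ : Eng.UnitAt V₃ u := Fermat.Agent.S36.H630.unit_of_split hu₃
  refine ⟨κ, fun 𝔫 h𝔫 hw𝔫 => hfin 𝔫 h𝔫 hw𝔫 ?_, fun 𝔫 h𝔫 hw𝔫 => hinf 𝔫 h𝔫 hw𝔫 ?_⟩
  · obtain ⟨d, -, a₀, s₀, h⟩ := ctx_pure_fin hw hq ctx 𝔫 h𝔫 hw𝔫 hm hdiv hU₁ hU₂ hU₃
    exact ⟨d, a₀, s₀, h⟩
  · obtain ⟨d, -, a₀, s₀, h⟩ := ctx_pure_inf hw hq ctx 𝔫 h𝔫 hw𝔫 hm hdiv hU₁ hU₂ hU₃
    exact ⟨d, a₀, s₀, h⟩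

end Fermat.Agent.S36.H987

end
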