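import Fermat.Agent.S18.H438.Front.HeightOne

/-!
# S36 / MOD3, leaf NORMAL — the OVERRING lemma (helper987)

Mathlib only.  Elementwise form of: *an overring of a Dedekind domain is integrally closed*.

Setting: `φ : F' → F` a field embedding, `B' ⊆ V'` a chart of `F'` and a valuation ring,
`B ⊆ V` a chart of `F` and a valuation ring, `φ (B') ⊆ B`, `φ (𝔪_{V'}) ⊆ 𝔪_V`, and

* `hres` : the residue field of `V` is the residue field of `V'`
  (`∀ f ∈ V, ∃ g ∈ V', f - φ g ∈ 𝔪_V`: residue degree one at the level of valuation rings);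
* `hpru` : the image of `B'` in the residue field of `V'` is a PRÜFER domain with that fraction
  field: for every prime `𝔭 ⊇ B' ∩ 𝔪_{V'}` of `B'` and every `g ∈ V'`, the residue of `g` or its
  inverse is a fraction with denominator outside `𝔭`.

Then the component of `B` cut out by `V` is normal in the sense of `Eng.NormalAlong`:
an element of `F` which is integral over `B` modulo `𝔪_V` is congruent modulo `𝔪_V` to an element
of `B`.  NO integrality of `B` over `φ (B')` is needed (chart at infinity of level `q² M'`!).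

* `mem_of_monic_aeval_mem`  : `V` is integrally closed (polynomial form);
* `dedekind_pruefer`        : localisations of a Dedekind domain are valuation rings;
* `pruefer_of_dedekind`     : `hpru` from `IsDedekindDomain (B' ⧸ p')`, `p' = B' ∩ 𝔪_{V'}`, and
                              `V' = B'_{p'}`;
* **`normalAlong_of_overring`**, `normalAlong_of_dedekind`.
-/

set_option autoImplicit false
set_option linter.style.haveILetI false
set_option linter.unusedSectionVars false
set_option linter.unusedVariables false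
set_option linter.overlappingInstances false
set_option synthInstance.maxHeartbeats 400000
set_option maxHeartbeats 1600000

noncomputable section

namespace Fermat.Agent.S36.H987

open Polynomial

section Val

variable {R F : Type*} [CommRing R] [Field F] [Algebra R F]

theorem ov_nu_mul_mem {V : ValuationSubring F} {a c : F} (ha : a ∈ V.nonunits) (hc : c ∈ V) :
    c * a ∈ V.nonunits := by
  rw [ValuationSubring.mem_nonunits_iff] at ha ⊢
  rw [map_mul]
  calc V.valuation c * V.valuation a ≤ 1 * V.valuation a := by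
        gcongr
        exact (V.valuation_le_one_iff _).2 hc
    _ = V.valuation a := one_mul _
    _ < 1 := ha

theorem ov_nu_add {V : ValuationSubring F} {a b : F} (ha : a ∈ V.nonunits)
    (hb : b ∈ V.nonunits) : a + b ∈ V.nonunits := by
  rw [ValuationSubring.mem_nonunits_iff] at ha hb ⊢
  exact lt_of_le_of_lt (V.valuation.map_add a b) (max_lt ha hb)

theorem ov_nu_sub {V : ValuationSubring F} {a b : F} (ha : a ∈ V.nonunits)
    (hb : b ∈ V.nonunits) : a - b ∈ V.nonunits := by
  rw [ValuationSubring.mem_nonunits_iff] at ha hb ⊢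
  exact lt_of_le_of_lt (V.valuation.map_sub a b) (max_lt ha hb)

theorem ov_nu_mem {V : ValuationSubring F} {a : F} (ha : a ∈ V.nonunits) : a ∈ V :=
  V.nonunits_subset ha

theorem ov_one_not_nu (V : ValuationSubring F) : (1 : F) ∉ V.nonunits := by
  rw [ValuationSubring.mem_nonunits_iff, map_one]
  exact lt_irrefl _

theorem ov_inv_mem {V : ValuationSubring F} {s : F} (hs : s ∈ V) (hs' : s ∉ V.nonunits) :
    s⁻¹ ∈ V := by
  have h1 : V.valuation s = 1 := by
    refine le_antisymm ((V.valuation_le_one_iff _).2 hs) ?_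
    rw [ValuationSubring.mem_nonunits_iff, not_lt] at hs'
    exact hs'
  rw [← V.valuation_le_one_iff, map_inv₀, h1, inv_one]

/-- A valuation ring is integrally closed, polynomial form: if `P (f) ∈ V` for a monic polynomial
`P` with coefficients in `B ⊆ V`, then `f ∈ V`. -/
theorem mem_of_monic_aeval_mem (B : Subalgebra R F) (V : ValuationSubring F)
    (hBV : ∀ b ∈ B, b ∈ V) (f : F) (P : Polynomial B) (hP : P.Monic)
    (h : Polynomial.aeval f P ∈ V) (h1 : Polynomial.aeval f P ≠ 1) : f ∈ V := by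
  classical
  let ι : B →+* V :=
    { toFun := fun b => ⟨b.1, hBV _ b.2⟩
      map_one' := rfl
      map_mul' := fun _ _ => rfl
      map_zero' := rfl
      map_add' := fun _ _ => rfl }
  have hdeg : P.natDegree ≠ 0 := by
    intro h0
    have : P = 1 := by
      have := Polynomial.eq_C_of_natDegree_eq_zero h0
      rw [this]
      have hlc : P.coeff 0 = 1 := by
        have := hP.coeff_natDegree
        rwa [h0] at this
      rw [hlc, map_one]
    rw [this, map_one] at h1
    exact h1 rfl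
  have hPm : (P.map ι).Monic := hP.map ι
  have hdegm : (P.map ι).natDegree = P.natDegree := hP.natDegree_map ι
  set Q : Polynomial V := P.map ι - Polynomial.C ⟨Polynomial.aeval f P, h⟩ with hQ
  have hQm : Q.Monic := by
    refine hPm.sub_of_left ?_
    refine lt_of_le_of_lt Polynomial.degree_C_le ?_
    rw [Polynomial.degree_eq_natDegree hPm.ne_zero, hdegm]
    exact_mod_cast Nat.pos_of_ne_zero hdeg
  have hroot : Polynomial.eval₂ (algebraMap V F) f Q = 0 := by
    rw [hQ, Polynomial.eval₂_sub, Polynomial.eval₂_C, Polynomial.eval₂_map]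
    have e : (algebraMap V F).comp ι = algebraMap B F := by
      ext b
      rfl
    rw [e]
    show Polynomial.aeval f P - Polynomial.aeval f P = 0
    exact sub_self _
  have hint : IsIntegral V f := ⟨Q, hQm, hroot⟩
  obtain ⟨y, hy⟩ := (IsIntegrallyClosed.isIntegral_iff (R := V) (K := F)).1 hint
  rw [← hy]
  exact y.2

end Val

section Pruefer

/-- **Localisations of a Dedekind domain are valuation rings.** -/
theorem dedekind_pruefer {D K : Type*} [CommRing D] [IsDomain D] [IsDedekindDomain D]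
    [Field K] [Algebra D K] [IsFractionRing D K] (P : Ideal D) [hP : P.IsPrime] (x : K) :
    ∃ a s : D, s ∉ P ∧
      (x * algebraMap D K s = algebraMap D K a ∨ x * algebraMap D K a = algebraMap D K s) := by
  classical
  by_cases hP0 : P = ⊥
  · obtain ⟨a, s, hs, rfl⟩ := IsFractionRing.div_surjective (A := D) x
    have hs0 : s ≠ 0 := nonZeroDivisors.ne_zero hs
    have hsK : algebraMap D K s ≠ 0 := by
      intro h
      exact hs0 (IsFractionRing.injective D K (by rw [h, map_zero]))
    refine ⟨a, s, ?_, Or.inl ?_⟩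
    · rw [hP0, Ideal.mem_bot]
      exact hs0
    · rw [div_mul_cancel₀ _ hsK]
  · set A := Localization.subalgebra.ofField K P.primeCompl P.primeCompl_le_nonZeroDivisors
      with hA
    haveI hloc : IsLocalization.AtPrime A P :=
      Localization.subalgebra.isLocalization_ofField K P.primeCompl
        P.primeCompl_le_nonZeroDivisors
    haveI : IsDiscreteValuationRing A :=
      IsLocalization.AtPrime.isDiscreteValuationRing_of_dedekind_domain D hP0 A
    rcases ValuationRing.isInteger_or_isInteger A x with ⟨y, hy⟩ | ⟨y, hy⟩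
    · have hx : x ∈ A := by
        rw [← hy]
        exact y.2
      obtain ⟨a, s, hs, h⟩ := (Fermat.Agent.S18.H438.mem_ofField_primeCompl_iff P x).1 hx
      exact ⟨a, s, hs, Or.inl h⟩
    · have hx : x⁻¹ ∈ A := by
        rw [← hy]
        exact y.2
      obtain ⟨a, s, hs, h⟩ := (Fermat.Agent.S18.H438.mem_ofField_primeCompl_iff P x⁻¹).1 hx
      by_cases hx0 : x = 0
      · refine ⟨0, 1, ?_, Or.inl ?_⟩
        · exact fun h1 => hP.ne_top ((Ideal.eq_top_iff_one _).2 h1)
        · rw [hx0, zero_mul, map_zero]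
      · refine ⟨a, s, hs, Or.inr ?_⟩
        rw [← h, ← mul_assoc, mul_inv_cancel₀ hx0, one_mul]

variable {R F : Type*} [CommRing R] [Field F] [Algebra R F]

/-- The Prüfer property of the component `B ⧸ p`, `p = B ∩ 𝔪_V`, elementwise. -/
def PrueferAlong (B : Subalgebra R F) (V : ValuationSubring F) : Prop :=
  ∀ 𝔭 : Ideal B, 𝔭.IsPrime → (∀ b : B, (b : F) ∈ V.nonunits → b ∈ 𝔭) →
    ∀ g ∈ V, ∃ a s : B, s ∉ 𝔭 ∧
      (g * (s : F) - (a : F) ∈ V.nonunits ∨ g * (a : F) - (s : F) ∈ V.nonunits)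

/-- **The Prüfer property from a Dedekind quotient**: `p = B ∩ 𝔪_V`, `B ⧸ p` Dedekind and
`V = B_p`. -/
theorem pruefer_of_dedekind (B : Subalgebra R F) (V : ValuationSubring F)
    (hBV : ∀ b ∈ B, b ∈ V)
    (p : Ideal B) [hp : p.IsPrime] (hpV : ∀ b : B, b ∈ p ↔ (b : F) ∈ V.nonunits)
    (hD : IsDedekindDomain (B ⧸ p))
    (hloc : ∀ g ∈ V, ∃ a s : B, (s : F) ∉ V.nonunits ∧ g = (a : F) * (s : F)⁻¹) :
    PrueferAlong B V := by
  classical
  intro 𝔭 h𝔭 hle g hg
  haveI := h𝔭
  haveI : IsDomain (B ⧸ p) := Ideal.Quotient.isDomain p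
  haveI := hD
  have hsurj : Function.Surjective (Ideal.Quotient.mk p) := Ideal.Quotient.mk_surjective
  have hp𝔭 : p ≤ 𝔭 := fun b hb => hle b ((hpV b).1 hb)
  -- the prime of the quotient
  set 𝔓 : Ideal (B ⧸ p) := 𝔭.map (Ideal.Quotient.mk p) with h𝔓
  have hmem : ∀ b : B, Ideal.Quotient.mk p b ∈ 𝔓 ↔ b ∈ 𝔭 := by
    intro b
    rw [h𝔓, ← Ideal.mem_comap, Ideal.comap_map_of_surjective _ hsurj, ← RingHom.ker_eq_comap_bot,
      Ideal.mk_ker, sup_eq_left.2 hp𝔭]
  haveI h𝔓p : 𝔓.IsPrime := by
    refine Ideal.map_isPrime_of_surjective hsurj ?_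
    rw [Ideal.mk_ker]
    exact hp𝔭
  obtain ⟨a, s, hs, rfl⟩ := hloc g hg
  have hsp : s ∉ p := fun h => hs ((hpV s).1 h)
  have hsF0 : (s : F) ≠ 0 := by
    intro h
    apply hs
    rw [h, ValuationSubring.mem_nonunits_iff, map_zero]
    exact zero_lt_one
  have hsinv : (s : F)⁻¹ ∈ V := ov_inv_mem (hBV _ s.2) hs
  set K := FractionRing (B ⧸ p) with hK
  have hinj : Function.Injective (algebraMap (B ⧸ p) K) := IsFractionRing.injective _ _
  have hsK : algebraMap (B ⧸ p) K (Ideal.Quotient.mk p s) ≠ 0 := by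
    intro h
    have : Ideal.Quotient.mk p s = 0 := hinj (by rw [h, map_zero])
    exact hsp (Ideal.Quotient.eq_zero_iff_mem.1 this)
  obtain ⟨a₁b, s₁b, hs₁, hcase⟩ := dedekind_pruefer (D := B ⧸ p) (K := K) 𝔓
    (algebraMap (B ⧸ p) K (Ideal.Quotient.mk p a)
      / algebraMap (B ⧸ p) K (Ideal.Quotient.mk p s))
  obtain ⟨a₁, rfl⟩ := hsurj a₁b
  obtain ⟨s₁, rfl⟩ := hsurj s₁b
  have hs₁𝔭 : s₁ ∉ 𝔭 := fun h => hs₁ ((hmem s₁).2 h)
  refine ⟨a₁, s₁, hs₁𝔭, ?_⟩
  rcases hcase with h | h
  · left
    -- `a s₁ - a₁ s ∈ p`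
    have h2 : a * s₁ - a₁ * s ∈ p := by
      rw [← Ideal.Quotient.eq]
      apply hinj
      rw [map_mul, map_mul, map_mul, map_mul]
      rw [div_mul_eq_mul_div, div_eq_iff hsK] at h
      exact h
    have h3 : ((a * s₁ - a₁ * s : B) : F) ∈ V.nonunits := (hpV _).1 h2
    have e : (a : F) * (s : F)⁻¹ * (s₁ : F) - (a₁ : F)
        = (s : F)⁻¹ * ((a * s₁ - a₁ * s : B) : F) := by
      push_cast
      field_simp
    rw [e]
    exact ov_nu_mul_mem h3 hsinv
  · right
    have h2 : a * a₁ - s₁ * s ∈ p := by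
      rw [← Ideal.Quotient.eq]
      apply hinj
      rw [map_mul, map_mul, map_mul, map_mul]
      rw [div_mul_eq_mul_div, div_eq_iff hsK] at h
      exact h
    have h3 : ((a * a₁ - s₁ * s : B) : F) ∈ V.nonunits := (hpV _).1 h2
    have e : (a : F) * (s : F)⁻¹ * (a₁ : F) - (s₁ : F)
        = (s : F)⁻¹ * ((a * a₁ - s₁ * s : B) : F) := by
      push_cast
      field_simp
    rw [e]
    exact ov_nu_mul_mem h3 hsinv

end Pruefer

section Main

variable {R F' F : Type*} [CommRing R] [Field F'] [Field F] [Algebra R F'] [Algebra R F]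

/-- For a monic polynomial `P` of degree `n` over a commutative ring:
`P.scaleRoots a` evaluated at `s` is `s ^ n` modulo `a`. -/
theorem eval_scaleRoots_sub_pow_mem {A : Type*} [CommRing A] (P : Polynomial A) (hP : P.Monic)
    (a s : A) (I : Ideal A) (ha : a ∈ I) :
    Polynomial.eval s (Polynomial.scaleRoots P a) - s ^ P.natDegree ∈ I := by
  classical
  rw [Polynomial.eval_eq_sum_range, Polynomial.natDegree_scaleRoots, Finset.sum_range_succ]
  have hlast : (Polynomial.scaleRoots P a).coeff P.natDegree * s ^ P.natDegree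
      = s ^ P.natDegree := by
    rw [Polynomial.coeff_scaleRoots, Nat.sub_self, pow_zero, mul_one, hP.coeff_natDegree,
      one_mul]
  rw [hlast, add_sub_cancel_right]
  refine Ideal.sum_mem _ fun i hi => ?_
  rw [Polynomial.coeff_scaleRoots]
  have hi' : i < P.natDegree := Finset.mem_range.1 hi
  have hpos : P.natDegree - i ≠ 0 := by omega
  have : a ^ (P.natDegree - i) ∈ I := Ideal.pow_mem_of_mem I ha _ (Nat.pos_of_ne_zero hpos)
  exact I.mul_mem_right _ (I.mul_mem_left _ this)

/-- **The overring lemma.**  See the header. -/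
theorem normalAlong_of_overring (φ : F' →+* F)
    (B' : Subalgebra R F') (V' : ValuationSubring F')
    (B : Subalgebra R F) (V : ValuationSubring F)
    (hBV : ∀ b ∈ B, b ∈ V)
    (hφB : ∀ b ∈ B', φ b ∈ B)
    (hφV : ∀ g : F', g ∈ V'.nonunits → φ g ∈ V.nonunits)
    (hres : ∀ f ∈ V, ∃ g ∈ V', f - φ g ∈ V.nonunits)
    (hpru : PrueferAlong B' V') :
    ∀ (f : F) (P : Polynomial B), P.Monic → Polynomial.aeval f P ∈ V.nonunits →
      ∃ b : B, f - (b : F) ∈ V.nonunits := by
  classical
  intro f P hP hPf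
  -- `f ∈ V`
  have hfV : f ∈ V := by
    refine mem_of_monic_aeval_mem B V hBV f P hP (ov_nu_mem hPf) ?_
    intro h1
    rw [h1] at hPf
    exact ov_one_not_nu V hPf
  obtain ⟨g, hgV', hfg⟩ := hres f hfV
  -- the conductor of `f`
  let I : Ideal B :=
    { carrier := {b | ∃ c : B, (b : F) * f - (c : F) ∈ V.nonunits}
      zero_mem' := by
        refine ⟨0, ?_⟩
        show ((0 : B) : F) * f - ((0 : B) : F) ∈ V.nonunits
        rw [ZeroMemClass.coe_zero, zero_mul, sub_zero, ValuationSubring.mem_nonunits_iff,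
          map_zero]
        exact zero_lt_one
      add_mem' := by
        rintro b₁ b₂ ⟨c₁, h₁⟩ ⟨c₂, h₂⟩
        refine ⟨c₁ + c₂, ?_⟩
        have e : ((b₁ + b₂ : B) : F) * f - ((c₁ + c₂ : B) : F)
            = ((b₁ : F) * f - (c₁ : F)) + ((b₂ : F) * f - (c₂ : F)) := by
          push_cast
          ring
        rw [e]
        exact ov_nu_add h₁ h₂
      smul_mem' := by
        rintro d b ⟨c, h⟩
        refine ⟨d * c, ?_⟩
        have e : ((d • b : B) : F) * f - ((d * c : B) : F)
            = (d : F) * ((b : F) * f - (c : F)) := by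
          rw [smul_eq_mul]
          push_cast
          ring
        rw [e]
        exact ov_nu_mul_mem h (hBV _ d.2) }
  have hI : ∀ b : B, b ∈ I ↔ ∃ c : B, (b : F) * f - (c : F) ∈ V.nonunits := fun _ => Iff.rfl
  by_cases h1 : (1 : B) ∈ I
  · obtain ⟨c, hc⟩ := (hI 1).1 h1
    refine ⟨c, ?_⟩
    have e : f - (c : F) = ((1 : B) : F) * f - (c : F) := by
      rw [OneMemClass.coe_one, one_mul]
    rw [e]
    exact hc
  exfalso
  have hItop : I ≠ ⊤ := fun h => h1 (h ▸ Submodule.mem_top)
  obtain ⟨𝔮, h𝔮max, hI𝔮⟩ := Ideal.exists_le_maximal I hItop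
  haveI h𝔮p : 𝔮.IsPrime := h𝔮max.isPrime
  -- the centre of `V` lies in `I`
  have hcentre : ∀ b : B, (b : F) ∈ V.nonunits → b ∈ I := by
    intro b hb
    refine (hI b).2 ⟨0, ?_⟩
    rw [ZeroMemClass.coe_zero, sub_zero, mul_comm]
    exact ov_nu_mul_mem hb hfV
  -- the map `B' → B`
  let ψ : B' →+* B :=
    { toFun := fun b => ⟨φ b.1, hφB _ b.2⟩
      map_one' := Subtype.ext (map_one φ)
      map_mul' := fun _ _ => Subtype.ext (map_mul φ _ _)
      map_zero' := Subtype.ext (map_zero φ)
      map_add' := fun _ _ => Subtype.ext (map_add φ _ _) }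
  have hψ : ∀ b : B', ((ψ b : B) : F) = φ (b : F') := fun _ => rfl
  set 𝔭 : Ideal B' := 𝔮.comap ψ with h𝔭
  haveI h𝔭p : 𝔭.IsPrime := Ideal.comap_isPrime ψ 𝔮
  have hle : ∀ b : B', (b : F') ∈ V'.nonunits → b ∈ 𝔭 := by
    intro b hb
    rw [h𝔭, Ideal.mem_comap]
    exact hI𝔮 (hcentre _ (by rw [hψ]; exact hφV _ hb))
  obtain ⟨a, s, hs, hcase⟩ := hpru 𝔭 h𝔭p hle g hgV'
  have hs𝔮 : ψ s ∉ 𝔮 := fun h => hs (by rw [h𝔭, Ideal.mem_comap]; exact h)
  -- `φ s · f ≡ φ a` gives a contradiction
  have key : ∀ a s : B', g * (s : F') - (a : F') ∈ V'.nonunits → ψ s ∈ I := by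
    intro a s h
    refine (hI _).2 ⟨ψ a, ?_⟩
    have e : ((ψ s : B) : F) * f - ((ψ a : B) : F)
        = φ (s : F') * (f - φ g) + φ (g * (s : F') - (a : F')) := by
      rw [hψ, hψ, map_sub, map_mul]
      ring
    rw [e]
    exact ov_nu_add (ov_nu_mul_mem hfg (hBV _ (hφB _ s.2))) (hφV _ h)
  rcases hcase with h | h
  · exact hs𝔮 (hI𝔮 (key a s h))
  · -- `g a ≡ s`: then `a ∈ 𝔭` is impossible by integrality, and `a ∉ 𝔭` by `key`
    have ha𝔮 : ψ a ∈ 𝔮 := hI𝔮 (key s a h)
    -- `φ a · f ≡ φ s`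
    have hcong : ((ψ a : B) : F) * f - ((ψ s : B) : F) ∈ V.nonunits := by
      have e : ((ψ a : B) : F) * f - ((ψ s : B) : F)
          = φ (a : F') * (f - φ g) + φ (g * (a : F') - (s : F')) := by
        rw [hψ, hψ, map_sub, map_mul]
        ring
      rw [e]
      exact ov_nu_add (ov_nu_mul_mem hfg (hBV _ (hφB _ a.2))) (hφV _ h)
    -- the scaled polynomial
    set Q : Polynomial B := Polynomial.scaleRoots P (ψ a) with hQ
    -- `Q (φ a · f) = (φ a) ^ n · P (f) ∈ 𝔪_V`
    have hQ1 : Polynomial.aeval (((ψ a : B) : F) * f) Q ∈ V.nonunits := by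
      have e1 := Polynomial.scaleRoots_eval₂_mul (p := P) (algebraMap B F) f (ψ a)
      have e2 : Polynomial.aeval (((ψ a : B) : F) * f) Q
          = ((ψ a : B) : F) ^ P.natDegree * Polynomial.aeval f P := by
        rw [Polynomial.aeval_def, Polynomial.aeval_def, hQ]
        exact e1
      rw [e2]
      exact ov_nu_mul_mem hPf (V.pow_mem (hBV _ (ψ a).2) _)
    -- `Q (φ a · f) ≡ Q (φ s)` modulo `𝔪_V`
    let ι : B →+* V :=
      { toFun := fun b => ⟨b.1, hBV _ b.2⟩
        map_one' := rfl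
        map_mul' := fun _ _ => rfl
        map_zero' := rfl
        map_add' := fun _ _ => rfl }
    have hafV : ((ψ a : B) : F) * f ∈ V := V.mul_mem _ _ (hBV _ (ψ a).2) hfV
    have hdvd := Polynomial.sub_dvd_eval_sub (⟨_, hafV⟩ : V) (ι (ψ s)) (Q.map ι)
    obtain ⟨z, hz⟩ := hdvd
    have hzF := congrArg (fun t : V => (t : F)) hz
    have hev : ∀ y : V, ((Polynomial.eval y (Q.map ι) : V) : F)
        = Polynomial.aeval (y : F) Q := by
      intro y
      rw [Polynomial.eval_map, Polynomial.aeval_def]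
      have := Polynomial.hom_eval₂ Q ι (algebraMap V F) y
      have e : (algebraMap V F).comp ι = algebraMap B F := by
        ext b
        rfl
      rw [e] at this
      exact this
    simp only [AddSubgroupClass.coe_sub, MulMemClass.coe_mul] at hzF
    rw [hev, hev] at hzF
    have hQ2 : Polynomial.aeval ((ψ s : B) : F) Q ∈ V.nonunits := by
      have e : Polynomial.aeval ((ψ s : B) : F) Q
          = Polynomial.aeval (((ψ a : B) : F) * f) Q
            - (((ψ a : B) : F) * f - ((ψ s : B) : F)) * (z : F) := by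
        have : ((ι (ψ s) : V) : F) = ((ψ s : B) : F) := rfl
        rw [this] at hzF
        rw [← hzF]
        ring
      rw [e]
      refine ov_nu_sub hQ1 ?_
      rw [mul_comm]
      exact ov_nu_mul_mem hcong z.2
    -- `Q (φ s) ∈ B ∩ 𝔪_V ⊆ 𝔮`
    have hQ3 : Polynomial.eval (ψ s) Q ∈ 𝔮 := by
      refine hI𝔮 (hcentre _ ?_)
      have : ((Polynomial.eval (ψ s) Q : B) : F) = Polynomial.aeval ((ψ s : B) : F) Q := by
        rw [Polynomial.aeval_def]
        exact (Polynomial.eval₂_at_apply (algebraMap B F) (ψ s)).symm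
      rw [this]
      exact hQ2
    have hQ4 := eval_scaleRoots_sub_pow_mem P hP (ψ a) (ψ s) 𝔮 ha𝔮
    have hpow : (ψ s) ^ P.natDegree ∈ 𝔮 := by
      have : (ψ s) ^ P.natDegree
          = Polynomial.eval (ψ s) Q - (Polynomial.eval (ψ s) Q - (ψ s) ^ P.natDegree) := by
        ring
      rw [this]
      exact 𝔮.sub_mem hQ3 hQ4
    exact hs𝔮 (h𝔮p.mem_of_pow_mem _ hpow)

/-- **The overring lemma, Dedekind form.** -/
theorem normalAlong_of_dedekind (φ : F' →+* F)
    (B' : Subalgebra R F') (V' : ValuationSubring F')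
    (B : Subalgebra R F) (V : ValuationSubring F)
    (hB'V' : ∀ b ∈ B', b ∈ V') (hBV : ∀ b ∈ B, b ∈ V)
    (hφB : ∀ b ∈ B', φ b ∈ B)
    (hφV : ∀ g : F', g ∈ V'.nonunits → φ g ∈ V.nonunits)
    (hres : ∀ f ∈ V, ∃ g ∈ V', f - φ g ∈ V.nonunits)
    (p' : Ideal B') [hp' : p'.IsPrime] (hp'V : ∀ b : B', b ∈ p' ↔ (b : F') ∈ V'.nonunits)
    (hD : IsDedekindDomain (B' ⧸ p'))
    (hloc : ∀ g ∈ V', ∃ a s : B', (s : F') ∉ V'.nonunits ∧ g = (a : F') * (s : F')⁻¹) :
    ∀ (f : F) (P : Polynomial B), P.Monic → Polynomial.aeval f P ∈ V.nonunits →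
      ∃ b : B, f - (b : F) ∈ V.nonunits :=
  normalAlong_of_overring φ B' V' B V hBV hφB hφV hres
    (pruefer_of_dedekind B' V' hB'V' p' hp'V hD hloc)

end Main

end Fermat.Agent.S36.H987

end
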