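import Fermat.Agent.A2.Alg.H754.SmoothAbs

/-!
# S36 engine / cell REG: purity at a REGULAR closed point, abstract form

(Verbatim copy, under a fresh name, of `S36/H996/RegPure.lean` by helper996 — kept here so that
the G3 chain of helper987 does not wait for that file to land.)


`B` a Noetherian integrally closed domain with fraction field `F`, `n` a maximal ideal,
`p ≤ n` a prime which is generated by `x` locally at `n` and such that `B ⧸ p` is Dedekind
(so `B_n` is a regular local ring of dimension `≤ 2` with parameters `x, t`).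
If the divisor of `u ∈ Fˣ` is divisible by `m` at every height-one prime
(`S18.H754.DivisibleDivisor`), then `u · d ^ m` is a unit at `n` for some `d ∈ Fˣ`.

This is helper754's `pure_smooth_abs` with the hypothesis `(ϖ) = p ⊓ p'`, `p' ⊄ n` replaced by
local principality of `p` at `n` — the form needed at the TRIPLE points of the chart of
`X₀(q² M')`, where local principality of `p_FF` comes from `principal_of_unit` (`PU.lean`).
-/

set_option autoImplicit false
set_option linter.style.haveILetI false

noncomputable section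

namespace Fermat.Agent.S36.H987

open IsLocalRing
open Fermat.Agent.S18.H754 (DivisibleDivisor LocallyPow)
open Fermat.Agent.A2.Alg.H754 (LocU locU_of_frac_of_inv_frac)

variable {B F : Type*} [CommRing B] [IsDomain B] [Field F] [Algebra B F] [IsFractionRing B F]
variable [IsNoetherianRing B] [IsIntegrallyClosed B]

/-- **Purity at a regular point.** -/
theorem pure_regular_abs987 (x : B) (hx : x ≠ 0) (p : Ideal B) [hp : p.IsPrime]
    (n : Ideal B) (hn : n.IsMaximal) (hpn : p ≤ n) (hxp : x ∈ p)
    (hgen : ∀ a ∈ p, ∃ g : B, g ∉ n ∧ ∃ c : B, g * a = x * c)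
    (hD : IsDedekindDomain (B ⧸ p))
    (m : ℕ) (hm : 0 < m) (u : F) (hu : u ≠ 0) (hdiv : DivisibleDivisor B m u) :
    ∃ d : F, d ≠ 0 ∧ LocU n (u * d ^ m) := by
  classical
  haveI hnp : n.IsPrime := hn.isPrime
  have hinj : Function.Injective (algebraMap B F) := IsFractionRing.injective B F
  have hxn : x ∈ n := hpn hxp
  -- local generator of `n` modulo `p`
  obtain ⟨t, htn, hreg⟩ : ∃ t ∈ n, ∀ a ∈ n, ∃ s : B, s ∉ n ∧ s * a ∈ Ideal.span {x, t} := by
    haveI := hD
    have hsurj : Function.Surjective (Ideal.Quotient.mk p) := Ideal.Quotient.mk_surjective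
    have hM : (n.map (Ideal.Quotient.mk p)).IsMaximal := by
      haveI := hn
      exact Ideal.IsMaximal.map_of_surjective_of_ker_le hsurj (by rw [Ideal.mk_ker]; exact hpn)
    obtain ⟨tb, htb, sb, hsb, hall⟩ :=
      Fermat.Agent.S18.B12.H84.exists_local_generator (n.map (Ideal.Quotient.mk p)) hM
    obtain ⟨t, rfl⟩ := hsurj tb
    obtain ⟨s, rfl⟩ := hsurj sb
    have hmem : ∀ b : B, Ideal.Quotient.mk p b ∈ n.map (Ideal.Quotient.mk p) ↔ b ∈ n := by
      intro b
      rw [← Ideal.mem_comap, Ideal.comap_map_of_surjective _ hsurj, ← RingHom.ker_eq_comap_bot,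
        Ideal.mk_ker, sup_eq_left.2 hpn]
    have hsn : s ∉ n := fun h => hsb ((hmem s).2 h)
    refine ⟨t, (hmem t).1 htb, fun a ha => ?_⟩
    have h1 := hall _ ((hmem a).2 ha)
    rw [Ideal.mem_span_singleton'] at h1
    obtain ⟨cb, hcb⟩ := h1
    obtain ⟨c, rfl⟩ := hsurj cb
    have hd : s * a - c * t ∈ p := by
      rw [← Ideal.Quotient.eq, map_mul, map_mul]
      exact hcb.symm
    obtain ⟨g, hgn, e, he⟩ := hgen _ hd
    refine ⟨g * s, fun h => (hnp.mem_or_mem h).elim hgn hsn, ?_⟩
    rw [Ideal.mem_span_pair]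
    refine ⟨e, g * c, ?_⟩
    linear_combination (-1 : B) * he
  -- the local ring `A = B_n ⊆ F`
  let A : Subalgebra B F :=
    Localization.subalgebra.ofField F n.primeCompl n.primeCompl_le_nonZeroDivisors
  haveI : IsLocalization.AtPrime A n := (inferInstance : IsLocalization n.primeCompl A)
  haveI : IsLocalRing A := IsLocalization.AtPrime.isLocalRing A n
  haveI : IsNoetherianRing A := IsLocalization.isNoetherianRing n.primeCompl A inferInstance
  have hmapp : Ideal.span {algebraMap B A x} = Ideal.map (algebraMap B A) p := by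
    apply le_antisymm
    · rw [Ideal.span_singleton_le_iff_mem]
      exact Ideal.mem_map_of_mem _ hxp
    · rw [Ideal.map_le_iff_le_comap]
      intro b hb
      obtain ⟨g, hgn, c, hc⟩ := hgen b hb
      rw [Ideal.mem_comap]
      have hu : IsUnit (algebraMap B A g) :=
        IsLocalization.map_units A (⟨g, hgn⟩ : n.primeCompl)
      have h2 : algebraMap B A g * algebraMap B A b ∈ Ideal.span {algebraMap B A x} := by
        rw [← map_mul, hc, map_mul]
        exact Ideal.mul_mem_right _ _ (Ideal.mem_span_singleton_self _)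
      exact (Ideal.unit_mul_mem_iff_mem _ hu).1 h2
  have hprime : Prime (algebraMap B A x) := by
    have h0 : algebraMap B A x ≠ 0 := fun h =>
      hx (IsLocalization.injective A n.primeCompl_le_nonZeroDivisors (by rw [h, map_zero]))
    rw [← Ideal.span_singleton_prime h0, hmapp]
    refine IsLocalization.isPrime_of_isPrime_disjoint n.primeCompl A p hp ?_
    rw [Set.disjoint_left]
    intro y hy hy'
    exact hy (hpn hy')
  have hmax : maximalIdeal A = Ideal.span {algebraMap B A x, algebraMap B A t} :=
    Fermat.Agent.S18.H754.maximalIdeal_loc_eq_span_pair n A hxn htn hreg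
  haveI : UniqueFactorizationMonoid A :=
    Fermat.Agent.S18.H754.ufd_of_regular_pair _ _ hprime hmax
  obtain ⟨s, hs0, ε, hε⟩ := Fermat.Agent.S18.H754.exists_unit_mul_pow (R := A) m hm u hu
    (fun π hπ => Fermat.Agent.S18.H754.locallyPow_of_divisibleDivisor n A hdiv π hπ)
  refine ⟨s, hs0, ?_⟩
  have hne : u * s ^ m ≠ 0 := mul_ne_zero hu (pow_ne_zero _ hs0)
  refine locU_of_frac_of_inv_frac n hne ?_ ?_
  · rw [hε]
    exact (Fermat.Agent.S18.H438.mem_ofField_primeCompl_iff n _).1 (ε : A).2
  · have e : (u * s ^ m)⁻¹ = algebraMap A F ((ε⁻¹ : Aˣ) : A) := by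
      rw [hε]
      apply inv_eq_of_mul_eq_one_left
      rw [← map_mul, Units.inv_mul, map_one]
    rw [e]
    exact (Fermat.Agent.S18.H438.mem_ofField_primeCompl_iff n _).1 ((ε⁻¹ : Aˣ) : A).2

end Fermat.Agent.S36.H987
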