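import Fermat.Agent.A2.Alg.H754.PuritySmooth
import Fermat.Agent.S36.H987.RegPure987
import Fermat.Agent.S36.H193.SheetsAll

/-!
# S36 engine, ALG3 gap lemma G3 (helper987), part 1: purity at a closed point, core

Setting: `R` a discrete valuation ring with uniformiser `w`, `E = Frac R`, `F / E` a function
field with coordinate `x`, `B = chart R {x}` (the integral closure of `R[x]` in `F`).

* `isIntegrallyClosed_quotient_centre` : if the component of `B` cut out by a sheet `V` is normal
  in the ELEMENTWISE sense of `Eng.NormalAlong` (an element of `F` which is integral over `B`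
  modulo `𝔪_V` is congruent modulo `𝔪_V` to an element of `B`), then `B ⧸ (B ∩ 𝔪_V)` is
  integrally closed.
* `divisibleDivisor_of_sheets` : `A2.DivisibleDiv E m u` and `u` a unit of EVERY sheet give
  `S18.H754.DivisibleDivisor B m u` (the vertical height-one primes of `B` are the centres of the
  sheets; no hypothesis on the special fibre).
* **`pure_of_locReg`** : if some sheet `V` through the closed point `𝔪` has a centre which is
  principal locally at `𝔪` (`LocReg`, = `Eng.Through ∧ Eng.PrincipalAt`) and a normal component,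
  then `u` has a purity datum at `𝔪`:  `u · d ^ m · s₀ = a₀` with `a₀, s₀ ∈ B ∖ 𝔪`
  (the exact purity input of `H630.basePureValuesAt_single / _triple`).
-/

set_option autoImplicit false
set_option linter.style.haveILetI false
set_option linter.unusedSectionVars false
set_option linter.unusedVariables false
set_option synthInstance.maxHeartbeats 400000
set_option maxHeartbeats 1600000

noncomputable section

namespace Fermat.Agent.S36.H987

open Polynomial IsLocalRing
open Fermat.Agent.A2
open Fermat.Agent.A2.H12 (IsSheet)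
open Fermat.Agent.S18.H138 (chart baseField)
open Fermat.Agent.S18.H754 (DivisibleDivisor)
open Fermat.Agent.A2.Alg.H754 (LocU)
open Fermat.Agent.S36.H193 (centreW mem_centreW sheet_chart_le)

universe u

/-- **Local regularity datum** at the closed point `𝔪` of the chart `B` along the valuation ring
`V`: `V` passes through `𝔪` and its centre `B ∩ 𝔪_V` is principal locally at `𝔪`. -/
def LocReg {R F : Type*} [CommRing R] [Field F] [Algebra R F] (B : Subalgebra R F)
    (𝔪 : Ideal B) (V : ValuationSubring F) : Prop :=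
  (∀ b : B, (b : F) ∈ V.nonunits → b ∈ 𝔪) ∧
    ∃ t : B, (t : F) ∈ V.nonunits ∧
      ∀ a : B, (a : F) ∈ V.nonunits → ∃ g c : B, g ∉ 𝔪 ∧ g * a = t * c

section Normal

variable {R : Type u} [CommRing R] [IsDomain R] {F : Type u} [Field F] [Algebra R F]

/-- Elementwise normality of the component cut out by `V` gives an integrally closed quotient. -/
theorem isIntegrallyClosed_quotient_centre (B : Subalgebra R F) (V : ValuationSubring F)
    (hBV : ∀ c ∈ B, c ∈ V)
    (hnormal : ∀ (f : F) (P : Polynomial B), P.Monic → Polynomial.aeval f P ∈ V.nonunits →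
      ∃ b : B, f - (b : F) ∈ V.nonunits) :
    IsIntegrallyClosed (B ⧸ centreW V B hBV) := by
  classical
  set p : Ideal B := centreW V B hBV with hp
  haveI hpp : p.IsPrime := inferInstance
  haveI hdom : IsDomain (B ⧸ p) := Ideal.Quotient.isDomain p
  let D := B ⧸ p
  haveI : IsDomain D := hdom
  set π : B →+* D := Ideal.Quotient.mk p with hπ
  have hπs : Function.Surjective π := Ideal.Quotient.mk_surjective
  refine (isIntegrallyClosed_iff (FractionRing D)).2 fun {z} hz => ?_
  obtain ⟨ab, sb, hsb, rfl⟩ := IsFractionRing.div_surjective (A := D) z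
  obtain ⟨a, rfl⟩ := hπs ab
  obtain ⟨s, rfl⟩ := hπs sb
  have hs0 : π s ≠ 0 := nonZeroDivisors.ne_zero hsb
  have hsp : s ∉ p := fun h => hs0 (Ideal.Quotient.eq_zero_iff_mem.2 h)
  have hsV : (s : F) ∉ V.nonunits := fun h => hsp ((mem_centreW V B hBV s).2 h)
  have hsF0 : (s : F) ≠ 0 := by
    intro h
    apply hsV
    rw [h]
    rw [ValuationSubring.mem_nonunits_iff, map_zero]
    exact zero_lt_one
  have hsinv : (s : F)⁻¹ ∈ V := by
    have h1 : V.valuation (s : F) = 1 := by
      refine le_antisymm ((V.valuation_le_one_iff _).2 (hBV _ s.2)) ?_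
      rw [ValuationSubring.mem_nonunits_iff, not_lt] at hsV
      exact hsV
    rw [← V.valuation_le_one_iff, map_inv₀, h1, inv_one]
  -- the integral equation, lifted
  obtain ⟨Pb, hPbm, hPb⟩ := hz
  obtain ⟨P, hPmap, -, hPm⟩ := Polynomial.lifts_and_degree_eq_and_monic
    ((Polynomial.mem_lifts Pb).2 (Polynomial.map_surjective π hπs Pb)) hPbm
  -- the homogenised equation in `D`
  have h1 : Polynomial.eval₂ (algebraMap D (FractionRing D)) (algebraMap D (FractionRing D) (π a))
      (Polynomial.scaleRoots Pb (π s)) = 0 :=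
    Polynomial.scaleRoots_eval₂_eq_zero_of_eval₂_div_eq_zero
      (IsFractionRing.injective D (FractionRing D)) hPb hsb
  have h2 : Polynomial.eval (π a) (Polynomial.scaleRoots Pb (π s)) = 0 := by
    apply IsFractionRing.injective D (FractionRing D)
    rw [map_zero, ← h1, Polynomial.eval₂_at_apply]
  have h3 : Polynomial.scaleRoots Pb (π s) = (Polynomial.scaleRoots P s).map π := by
    rw [← hPmap]
    refine (Polynomial.map_scaleRoots P s π ?_).symm
    rw [hPm.leadingCoeff, map_one]
    exact one_ne_zero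
  have h4 : Polynomial.eval a (Polynomial.scaleRoots P s) ∈ p := by
    rw [← Ideal.Quotient.eq_zero_iff_mem]
    show π (Polynomial.eval a (Polynomial.scaleRoots P s)) = 0
    rw [← Polynomial.eval_map_apply, ← h3]
    exact h2
  -- in `F`
  have h5 : ((Polynomial.eval a (Polynomial.scaleRoots P s) : B) : F)
      = (s : F) ^ P.natDegree * Polynomial.aeval ((a : F) * (s : F)⁻¹) P := by
    have e1 := Polynomial.scaleRoots_eval₂_mul (p := P) (algebraMap B F)
      ((a : F) * (s : F)⁻¹) s
    have e2 : algebraMap B F s * ((a : F) * (s : F)⁻¹) = algebraMap B F a := by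
      show (s : F) * ((a : F) * (s : F)⁻¹) = (a : F)
      field_simp
    rw [e2] at e1
    rw [Polynomial.aeval_def]
    have e3 : (algebraMap B F s) = (s : F) := rfl
    rw [e3] at e1
    rw [← e1, Polynomial.eval₂_at_apply]
    rfl
  have h6 : Polynomial.aeval ((a : F) * (s : F)⁻¹) P ∈ V.nonunits := by
    have h7 : ((Polynomial.eval a (Polynomial.scaleRoots P s) : B) : F) ∈ V.nonunits :=
      (mem_centreW V B hBV _).1 h4
    have h8 : Polynomial.aeval ((a : F) * (s : F)⁻¹) P
        = ((s : F)⁻¹) ^ P.natDegree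
          * ((Polynomial.eval a (Polynomial.scaleRoots P s) : B) : F) := by
      rw [h5, ← mul_assoc, ← mul_pow, inv_mul_cancel₀ hsF0, one_pow, one_mul]
    rw [h8]
    rw [ValuationSubring.mem_nonunits_iff] at h7 ⊢
    rw [map_mul]
    have h9 : V.valuation (((s : F)⁻¹) ^ P.natDegree) ≤ 1 :=
      (V.valuation_le_one_iff _).2 (V.pow_mem hsinv _)
    calc V.valuation (((s : F)⁻¹) ^ P.natDegree) * V.valuation _
        ≤ 1 * V.valuation ((Polynomial.eval a (Polynomial.scaleRoots P s) : B) : F) := by
          gcongr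
      _ = V.valuation ((Polynomial.eval a (Polynomial.scaleRoots P s) : B) : F) := one_mul _
      _ < 1 := h7
  obtain ⟨b, hb⟩ := hnormal _ P hPm h6
  refine ⟨π b, ?_⟩
  -- `a - s b ∈ p`
  have h10 : a - s * b ∈ p := by
    rw [mem_centreW]
    have : ((a - s * b : B) : F) = (s : F) * ((a : F) * (s : F)⁻¹ - (b : F)) := by
      push_cast
      field_simp
    rw [this]
    rw [ValuationSubring.mem_nonunits_iff] at hb ⊢
    rw [map_mul]
    calc V.valuation (s : F) * V.valuation _ ≤ 1 * V.valuation ((a : F) * (s : F)⁻¹ - (b : F)) := by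
          gcongr
          exact (V.valuation_le_one_iff _).2 (hBV _ s.2)
      _ = _ := one_mul _
      _ < 1 := hb
  have h11 : π a = π s * π b := by
    rw [← map_mul]
    exact (Ideal.Quotient.eq.2 h10)
  have hs' : algebraMap D (FractionRing D) (π s) ≠ 0 := by
    intro h
    exact hs0 (IsFractionRing.injective D (FractionRing D) (by rw [h, map_zero]))
  show algebraMap D (FractionRing D) (π b)
    = algebraMap D (FractionRing D) (π a) / algebraMap D (FractionRing D) (π s)
  rw [h11, map_mul, mul_div_cancel_left₀ _ hs']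

end Normal

section Core

variable {R E F : Type u} [CommRing R] [IsDomain R] [IsDiscreteValuationRing R]
  [Field E] [CharZero E] [Algebra R E] [IsFractionRing R E]
  [Field F] [Algebra E F] [Algebra R F] [IsScalarTower R E F]

/-- `m ∣ div u` at every height-one prime of the chart, if `m ∣ div u` on the generic fibre and
`u` is a unit of every sheet. -/
theorem divisibleDivisor_of_sheets (w : R) (hw : Irreducible w) {x : F}
    (hx : Transcendental E x)
    (hfin : FiniteDimensional (IntermediateField.adjoin E ({x} : Set F)) F)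
    [IsNoetherianRing (chart R ({x} : Set F))] [IsIntegrallyClosed (chart R ({x} : Set F))]
    [IsFractionRing (chart R ({x} : Set F)) F]
    (m : ℕ) (u : F) (hu : u ≠ 0) (hdiv : DivisibleDiv E m u)
    (hus : ∀ V, IsSheet w x V → u ∈ V ∧ u⁻¹ ∈ V) :
    DivisibleDivisor (chart R ({x} : Set F)) m u := by
  classical
  set B := chart R ({x} : Set F) with hB
  intro 𝔭 h𝔭 hht
  haveI := h𝔭
  have hxR : Transcendental R x := Fermat.Agent.A2.Alg.H754.transcendental_base hx
  haveI : CharZero F := charZero_of_injective_algebraMap (algebraMap E F).injective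
  haveI := Fermat.Agent.A2.Alg.H754.finiteDimensional_baseField (R := R) x hfin
  have hinjRF : Function.Injective (algebraMap R F) :=
    Fermat.Agent.A2.Alg.H754.algebraMap_base_injective (E := E)
  have hinjB : Function.Injective (algebraMap R B) :=
    Fermat.Agent.A2.Alg.H754.algebraMap_chart_injective (E := E) B
  have hwB0 : algebraMap R B w ≠ 0 := fun h0 => hw.ne_zero (hinjB (by rw [h0, map_zero]))
  by_cases hw𝔭 : algebraMap R B w ∈ 𝔭
  · -- vertical prime: the centre of a sheet
    have hmin : 𝔭 ∈ (Ideal.span {algebraMap R B w}).minimalPrimes := by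
      refine ⟨⟨h𝔭, ?_⟩, ?_⟩
      · rw [Ideal.span_le, Set.singleton_subset_iff]
        exact hw𝔭
      · rintro q ⟨hq, hwq⟩ hq𝔭
        haveI := hq
        haveI : q.FiniteHeight := Ideal.finiteHeight_of_isNoetherianRing q
        have hq0 : q ≠ ⊥ := by
          intro h0
          have : algebraMap R B w ∈ q := hwq (Ideal.subset_span rfl)
          rw [h0, Ideal.mem_bot] at this
          exact hwB0 this
        have : q = 𝔭 := by
          refine Ideal.eq_of_le_of_height_le (I := q) (J := 𝔭) hq𝔭 ?_
          rw [hht, Order.one_le_iff_pos, pos_iff_ne_zero, Ne, Ideal.height_eq_zero_iff_eq_bot]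
          exact hq0
        rw [this]
    obtain ⟨V, hV, hVp⟩ := Fermat.Agent.S36.H193.exists_sheet_of_minimal w hw.prime hxR 𝔭 hmin
    obtain ⟨huV, huV'⟩ := hus V hV
    obtain ⟨a, s, hs, has⟩ :=
      (Fermat.Agent.S36.H193.sheet_mem_iff hinjRF hw.prime hxR hV u).1 huV
    have hs𝔭 : s ∉ 𝔭 := fun h => hs ((hVp s).2 h)
    have hsF0 : (s : F) ≠ 0 := by
      intro h
      apply hs
      rw [h, ValuationSubring.mem_nonunits_iff, map_zero]
      exact zero_lt_one
    have hua : u * (s : F) = a := by
      rw [has, mul_assoc, inv_mul_cancel₀ hsF0, mul_one]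
    refine ⟨1, a, s, ?_, hs𝔭, ?_⟩
    · intro ha
      have haV : (a : F) ∈ V.nonunits := (hVp a).2 ha
      -- `s = u⁻¹ a` would be a non-unit
      apply hs
      have : (s : F) = u⁻¹ * (a : F) := by
        rw [← hua, ← mul_assoc, inv_mul_cancel₀ hu, one_mul]
      rw [this]
      rw [ValuationSubring.mem_nonunits_iff] at haV ⊢
      rw [map_mul]
      calc V.valuation u⁻¹ * V.valuation (a : F) ≤ 1 * V.valuation (a : F) := by
            gcongr
            exact (V.valuation_le_one_iff _).2 huV'
        _ = V.valuation (a : F) := one_mul _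
        _ < 1 := haV
    · rw [one_pow, mul_one]
      exact hua
  · -- horizontal prime: `B_𝔭` is a DVR containing `E`
    obtain ⟨W, hdvr, hW⟩ := Fermat.Agent.S18.H438.exists_dvr_of_height_one (F := F) 𝔭 hht
    have hE : ∀ e : E, algebraMap E F e ∈ W := by
      intro e
      obtain ⟨a, b, hb, rfl⟩ := IsFractionRing.div_surjective (A := R) e
      have hb0 : b ≠ 0 := nonZeroDivisors.ne_zero hb
      obtain ⟨k, υ, hbk⟩ := IsDiscreteValuationRing.eq_unit_mul_pow_irreducible hb0 hw
      have hb𝔭 : algebraMap R B b ∉ 𝔭 := by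
        rw [hbk, map_mul, map_pow]
        intro h
        rcases h𝔭.mem_or_mem h with h | h
        · exact h𝔭.ne_top (Ideal.eq_top_of_isUnit_mem _ h (υ.isUnit.map (algebraMap R B)))
        · exact hw𝔭 (h𝔭.mem_of_pow_mem k h)
      have hbF : algebraMap R F b ≠ 0 := fun h0 => hb0 (hinjRF (by rw [h0, map_zero]))
      refine (hW _).2 ⟨algebraMap R B a, algebraMap R B b, hb𝔭, ?_⟩
      rw [← IsScalarTower.algebraMap_apply R B F, ← IsScalarTower.algebraMap_apply R B F,
        map_div₀, ← IsScalarTower.algebraMap_apply R E F, ← IsScalarTower.algebraMap_apply R E F,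
        div_mul_cancel₀ _ hbF]
    obtain ⟨h, u₀, hh, hu₀, hu₀', huh⟩ := hdiv W hdvr hE
    have hu₀0 : u₀ ≠ 0 := by
      rintro rfl
      rw [zero_mul] at huh
      exact hu huh
    obtain ⟨a, s, ha, hs', has⟩ :=
      (Fermat.Agent.A2.Alg.H754.locU_iff_of_valuationSubring 𝔭 W hW hu₀0).2 ⟨hu₀, hu₀'⟩
    refine ⟨h⁻¹, a, s, ha, hs', ?_⟩
    rw [huh, inv_pow, mul_assoc u₀, mul_inv_cancel₀ (pow_ne_zero _ hh), mul_one]
    exact has

/-- **Purity at a closed point** from a local regularity datum along a sheet with normal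
component. -/
theorem pure_of_locReg_aux (w : R) (hw : Irreducible w) {x : F} (hx : Transcendental E x)
    (hfin : FiniteDimensional (IntermediateField.adjoin E ({x} : Set F)) F)
    {m : ℕ} (hm : 0 < m) {u : F} (hu : u ≠ 0) (hdiv : DivisibleDiv E m u)
    (hus : ∀ V, IsSheet w x V → u ∈ V ∧ u⁻¹ ∈ V)
    (V : ValuationSubring F) (hV : IsSheet w x V)
    (B : Subalgebra R F) (hBdef : B = chart R ({x} : Set F))
    (hnormal : ∀ (f : F) (P : Polynomial B), P.Monic →
      Polynomial.aeval f P ∈ V.nonunits → ∃ b : B, f - (b : F) ∈ V.nonunits)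
    (𝔪 : Ideal B) (h𝔪 : 𝔪.IsMaximal)
    (hreg : LocReg B 𝔪 V) :
    ∃ d : F, d ≠ 0 ∧ ∃ a₀ s₀ : B, a₀ ∉ 𝔪 ∧ s₀ ∉ 𝔪 ∧
      u * d ^ m * (s₀ : F) = a₀ := by
  classical
  subst hBdef
  have hxR : Transcendental R x := Fermat.Agent.A2.Alg.H754.transcendental_base hx
  haveI : CharZero F := charZero_of_injective_algebraMap (algebraMap E F).injective
  haveI := Fermat.Agent.A2.Alg.H754.finiteDimensional_baseField (R := R) x hfin
  obtain ⟨hN, hIC, hFr⟩ := Fermat.Agent.S18.H394.chart_instances (R := R) hxR
  haveI := hN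
  haveI := hIC
  haveI := hFr
  have hinjB : Function.Injective (algebraMap R (chart R ({x} : Set F))) :=
    Fermat.Agent.A2.Alg.H754.algebraMap_chart_injective (E := E) (chart R ({x} : Set F))
  have hwB0 : algebraMap R (chart R ({x} : Set F)) w ≠ 0 := fun h0 => hw.ne_zero (hinjB (by rw [h0, map_zero]))
  have hBV : ∀ c ∈ (chart R ({x} : Set F)), c ∈ V := sheet_chart_le hV
  set p : Ideal (chart R ({x} : Set F)) := centreW V (chart R ({x} : Set F)) hBV with hp
  haveI hpp : p.IsPrime := inferInstance
  have hwp : algebraMap R (chart R ({x} : Set F)) w ∈ p := (mem_centreW V (chart R ({x} : Set F)) hBV _).2 hV.2.2.1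
  have hp0 : p ≠ ⊥ := by
    intro h0
    rw [h0, Ideal.mem_bot] at hwp
    exact hwB0 hwp
  -- the component is Dedekind
  have hnorm : IsIntegrallyClosed ((chart R ({x} : Set F)) ⧸ p) := isIntegrallyClosed_quotient_centre (chart R ({x} : Set F)) V hBV hnormal
  haveI := Fermat.Agent.S18.H138.isNoetherianRing_adjoin_singleton (R := R) hxR
  letI : Algebra (Algebra.adjoin R ({x} : Set F)) (chart R ({x} : Set F)) :=
    inferInstanceAs (Algebra (Algebra.adjoin R ({x} : Set F))
      (integralClosure (Algebra.adjoin R ({x} : Set F)) F))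
  haveI : Algebra.IsIntegral (Algebra.adjoin R ({x} : Set F)) (chart R ({x} : Set F)) :=
    inferInstanceAs (Algebra.IsIntegral (Algebra.adjoin R ({x} : Set F))
      (integralClosure (Algebra.adjoin R ({x} : Set F)) F))
  have hD : IsDedekindDomain ((chart R ({x} : Set F)) ⧸ p) :=
    Fermat.Agent.A2.Alg.H754.isDedekindDomain_quotient_of_dim
      (A₀ := Algebra.adjoin R ({x} : Set F))
      (Fermat.Agent.A2.Alg.H754.ringKrullDim_adjoin_le x hxR) p hp0 hnorm
  have hDD : DivisibleDivisor (chart R ({x} : Set F)) m u := divisibleDivisor_of_sheets w hw hx hfin m u hu hdiv hus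
  obtain ⟨hth, t, htV, hgen⟩ := hreg
  have hpn : p ≤ 𝔪 := fun b hb => hth b ((mem_centreW V (chart R ({x} : Set F)) hBV b).1 hb)
  have htp : t ∈ p := (mem_centreW V (chart R ({x} : Set F)) hBV t).2 htV
  have ht0 : t ≠ 0 := by
    rintro rfl
    -- `p` would be locally zero, but `w ∈ p`, `w ≠ 0`
    obtain ⟨g, c, hg, hgc⟩ := hgen _ ((mem_centreW V (chart R ({x} : Set F)) hBV _).1 hwp)
    rw [zero_mul] at hgc
    rcases mul_eq_zero.1 hgc with h | h
    · exact hg (h ▸ 𝔪.zero_mem)
    · exact hwB0 h
  have hgen' : ∀ a ∈ p, ∃ g : (chart R ({x} : Set F)), g ∉ 𝔪 ∧ ∃ c : (chart R ({x} : Set F)), g * a = t * c := by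
    intro a ha
    obtain ⟨g, c, hg, hgc⟩ := hgen a ((mem_centreW V (chart R ({x} : Set F)) hBV a).1 ha)
    exact ⟨g, hg, c, hgc⟩
  obtain ⟨d, hd0, a, s, ha, hs, has⟩ :=
    pure_regular_abs987 t ht0 p 𝔪 h𝔪 hpn htp hgen' hD m hm u hu hDD
  exact ⟨d, hd0, a, s, ha, hs, has⟩

/-- **Purity at a closed point** of `chart R {x}` from a local regularity datum along a sheet
with normal component. -/
theorem pure_of_locReg (w : R) (hw : Irreducible w) {x : F} (hx : Transcendental E x)
    (hfin : FiniteDimensional (IntermediateField.adjoin E ({x} : Set F)) F)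
    {m : ℕ} (hm : 0 < m) {u : F} (hu : u ≠ 0) (hdiv : DivisibleDiv E m u)
    (hus : ∀ V, IsSheet w x V → u ∈ V ∧ u⁻¹ ∈ V)
    (V : ValuationSubring F) (hV : IsSheet w x V)
    (hnormal : ∀ (f : F) (P : Polynomial (chart R ({x} : Set F))), P.Monic →
      Polynomial.aeval f P ∈ V.nonunits → ∃ b : chart R ({x} : Set F), f - (b : F) ∈ V.nonunits)
    (𝔪 : Ideal (chart R ({x} : Set F))) (h𝔪 : 𝔪.IsMaximal)
    (hreg : LocReg (chart R ({x} : Set F)) 𝔪 V) :
    ∃ d : F, d ≠ 0 ∧ ∃ a₀ s₀ : chart R ({x} : Set F), a₀ ∉ 𝔪 ∧ s₀ ∉ 𝔪 ∧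
      u * d ^ m * (s₀ : F) = a₀ :=
  pure_of_locReg_aux w hw hx hfin hm hu hdiv hus V hV _ rfl hnormal 𝔪 h𝔪 hreg

end Core

end Fermat.Agent.S36.H987

end
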